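/-
S36, instance of the model, node N1 PRE-INST, fields `const_mem`, `x_unit`, `gauss` (helper38):
`j` is a coordinate (`BAD.LevelQ.IsMCoord`) on each of the three vertical components of level
`N0 q q`: its residue `j(t)` resp. `j(t^(q q))` has a pole, hence is transcendental over `𝕜`.
-/
import Mathlib
import Fermat.Agent.S18.Base.Coord
import Fermat.Agent.BAD.LevelQ.Defs
import Fermat.Agent.S36.Inst.Cusp.Cong

set_option autoImplicit false
set_option linter.unusedSectionVars false

noncomputable section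

namespace Fermat.Agent.S36.Inst

open ModularCurve Polynomial Fermat.Agent.S24 Fermat.Agent.S18 Fermat.Agent.S36.Mod
  Fermat.Agent.BAD.LevelQ

section General

variable {K₀ F k : Type*} [Field K₀] [Field F] [Algebra K₀ F] [Field k]

theorem preAux_isMCoord {A₀ : ValuationSubring K₀} {V : ValuationSubring F}
    (r : V →+* LaurentSeries k) (hr : ∀ f : V, r f = 0 ↔ (f : F) ∈ V.nonunits) (ρ : A₀ →+* k)
    (hρ : ∀ a : A₀, ρ a = 0 → A₀.valuation (a : K₀) < 1)
    (hc : ∀ a ∈ A₀, algebraMap K₀ F a ∈ V)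
    (hrc : ∀ a (ha : a ∈ A₀), r ⟨algebraMap K₀ F a, hc a ha⟩ = HahnSeries.C (ρ ⟨a, ha⟩))
    {x : F} (hx : x ∈ V) (hord : (r ⟨x, hx⟩).order ≠ 0) : IsMCoord A₀ V x := by
  refine ⟨hx, fun p hp hlt i => ?_⟩
  have htr : Transcendental k (r ⟨x, hx⟩) := Coord.transcendental_of_order_ne_zero hord
  set c : ℕ → A₀ := fun i => ⟨p.coeff i, hp i⟩ with hcdef
  set n := p.natDegree with hn
  set y : V := ∑ i ∈ Finset.range (n + 1), ⟨algebraMap K₀ F (c i), hc _ (c i).2⟩ * ⟨x, hx⟩ ^ i
    with hy
  have hyF : (y : F) = aeval x p := by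
    rw [aeval_eq_sum_range, hy]
    push_cast
    refine Finset.sum_congr rfl fun i _ => ?_
    rw [Algebra.smul_def]
  have hry : r y = 0 := by
    rw [hr, hyF]
    exact V.mem_nonunits_iff.2 hlt
  set pb : k[X] := ∑ i ∈ Finset.range (n + 1), monomial i (ρ (c i)) with hpb
  have h1 : aeval (r ⟨x, hx⟩) pb = r y := by
    rw [hpb, hy, map_sum, map_sum]
    refine Finset.sum_congr rfl fun i _ => ?_
    rw [aeval_monomial, map_mul, map_pow, hrc, algebraMap_laurentSeries_eq_single]
    rfl
  have h2 : pb = 0 := by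
    rw [transcendental_iff] at htr
    exact htr pb (h1.trans hry)
  by_cases hi : i ≤ n
  · have h3 : pb.coeff i = ρ (c i) := by
      rw [hpb, finsetSum_coeff]
      simp only [coeff_monomial]
      rw [Finset.sum_ite_eq' ]
      rw [if_pos (Finset.mem_range.2 (Nat.lt_succ_of_le hi))]
    rw [h2, coeff_zero] at h3
    exact hρ (c i) h3.symm
  · rw [coeff_eq_zero_of_natDegree_lt (not_le.1 hi), map_zero]
    exact zero_lt_one

end General

variable {K K' : Type*} [Field K] [Field K'] [Algebra ℚ K] [Algebra ℚ K'] [Algebra K Kbar]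
  [Algebra K' Kbar] (S : Setup K K')

theorem pre_redB (a : S.B) (h : S.redB a = 0) : S.B.valuation (a : K) < 1 := by
  have h1 : IsLocalRing.residue S.B a = 0 := by
    have h2 : (resFieldMap S.ι S.comap_ι) (IsLocalRing.residue S.B a) = 0 := h
    exact (map_eq_zero _).1 h2
  rw [IsLocalRing.residue_eq_zero_iff] at h1
  exact (S.B.valuation_lt_one_iff a).1 h1

theorem pre_const_mem (c : Fin 3) : ∀ a ∈ S.B, algebraMap K S.F2 a ∈ VV S c := by
  intro a ha
  fin_cases c
  · exact S.const_mem_V20 a ha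
  · exact S.const_mem_V11 a ha
  · exact S.const_mem_V02 a ha

theorem pre_order_ne (n : ℕ) [NeZero n] : (S.jb n).order ≠ 0 := by
  rw [S.order_jb]
  have : (n : ℤ) ≠ 0 := by exact_mod_cast NeZero.ne n
  simpa using this

/-- `j` is a coordinate on each vertical component. -/
theorem isMCoord_J2one (c : Fin 3) : IsMCoord S.B (VV S c) S.J2one := by
  fin_cases c
  · exact preAux_isMCoord S.r20 S.r20_eq_zero_iff S.redB (pre_redB S) S.const_mem_V20 S.r20_const
      S.ci_J2one_mem20 (by rw [S.ci_r20_J2one]; exact pre_order_ne S 1)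
  · exact preAux_isMCoord S.r11 S.r11_eq_zero_iff S.redB (pre_redB S) S.const_mem_V11 S.r11_const
      S.ci_J2one_mem11 (by rw [S.ci_r11_J2one]; exact pre_order_ne S 1)
  · exact preAux_isMCoord S.r02 S.r02_eq_zero_iff S.redB (pre_redB S) S.const_mem_V02 S.r02_const
      S.ci_J2one_mem02 (by
        rw [S.ci_r02_J2one, ← S.jb_q_mul, ← S.jb_q_mul]; exact pre_order_ne S _)

end Fermat.Agent.S36.Inst

end
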